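/-
S33 project, cell [S33-GEO], abstract core **(INV+)** (helper9; prefix `s33g_`; design: helper27's
study of S33).

`F/K` a function field over an algebraically closed field, `Wv` a valuation subring of `F` of
residue characteristic `p` whose value group is that of the constants (`hnrm`), `𝒢` a set of
semilinear automorphisms which are "inertial" for `Wv` (`g • f - f ∈ 𝔪` for `f ∈ Wv`), `T` a
`K`-algebra endomorphism of `F` commuting with `𝒢`.

If `x ∈ Pic⁰(F)[p]` lies in the subgroup generated by the `g • z - z`, `g ∈ 𝒢`, `p ^ n • z = 0`,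
then `x` is represented by `(D, f)`, `p D = div f`, with `T f = h ^ p * (1 + y)`, `y ∈ 𝔪_{Wv}`
(`Ψ_w(x) = 0`, depth `> 0`).

[`F_x := ∏ (g_i f_i / f_i)^{±1}` is a `p ^ n`-representative of `x` with `T F_x ∈ Kˣ (1 + 𝔪)`;
`F_x = a φ ^ (p ^ (n-1))` for a `p`-representative `φ`; `p ^ (n-1)`-th roots of `1` are trivial
in the residue field of `Wv`.]
-/
import Mathlib
import Fermat.Agent.S44.PsiEig.CoreT

set_option autoImplicit false

namespace Fermat.Agent.S33

open AlgebraicCurve Fermat.Agent.S24 Fermat.Agent.S44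

universe u v
variable {K : Type u} {F : Type v} [Field K] [Field F] [Algebra K F]

/-! ### principal units -/

theorem s33g_pu_mem (Wv : ValuationSubring F) {E : F} (hE : E - 1 ∈ Wv.nonunits) : E ∈ Wv := by
  have h1 : E - 1 ∈ Wv := Wv.nonunits_le hE
  have : E = (E - 1) + 1 := by ring
  rw [this]
  exact Wv.add_mem _ _ h1 Wv.one_mem

theorem s33g_pu_mul (Wv : ValuationSubring F) {E E' : F} (hE : E - 1 ∈ Wv.nonunits)
    (hE' : E' - 1 ∈ Wv.nonunits) : E * E' - 1 ∈ Wv.nonunits := by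
  have h1 : E * E' - 1 = (E - 1) * E' + (E' - 1) := by ring
  rw [h1, ValuationSubring.mem_nonunits_iff]
  refine Valuation.map_add_lt _ ?_ (Wv.mem_nonunits_iff.mp hE')
  rw [map_mul]
  have h2 := Wv.mem_nonunits_iff.mp hE
  have h3 := (Wv.valuation_le_one_iff E').mpr (s33g_pu_mem Wv hE')
  calc Wv.valuation (E - 1) * Wv.valuation E' ≤ Wv.valuation (E - 1) * 1 :=
        mul_le_mul_right h3 _
    _ = Wv.valuation (E - 1) := mul_one _
    _ < 1 := h2

theorem s33g_pu_inv (Wv : ValuationSubring F) {E : F} (hE : E - 1 ∈ Wv.nonunits) :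
    E⁻¹ - 1 ∈ Wv.nonunits := by
  have := s44pe_zpow_sub_one_mem Wv hE (-1)
  rwa [zpow_neg_one] at this

/-! ### classes with a representative which is almost constant at `Wv ∘ T` -/

/-- `y` has a `q`-representative `f` (`q D = div f`, `[D] = y`) with `T f ∈ Kˣ (1 + 𝔪_{Wv})`. -/
def s33g_Near (q : ℕ) (Wv : ValuationSubring F) (T : F →ₐ[K] F) (y : Pic0 K F) : Prop :=
  ∃ (D : Divisor.degZero (K := K) (F := F)) (f : F), s44pe_Rep q y D f ∧
    ∃ c : K, c ≠ 0 ∧ T f / algebraMap K F c - 1 ∈ Wv.nonunits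

theorem s33g_near_zero (q : ℕ) (Wv : ValuationSubring F) (T : F →ₐ[K] F) :
    s33g_Near q Wv T (0 : Pic0 K F) := by
  refine ⟨0, 1, ⟨one_ne_zero, rfl, fun v => by simp⟩, 1, one_ne_zero, ?_⟩
  rw [map_one, map_one, div_one, sub_self, ValuationSubring.mem_nonunits_iff, map_zero]
  exact zero_lt_one

theorem s33g_near_add {q : ℕ} {Wv : ValuationSubring F} {T : F →ₐ[K] F} {y y' : Pic0 K F}
    (h : s33g_Near q Wv T y) (h' : s33g_Near q Wv T y') : s33g_Near q Wv T (y + y') := by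
  obtain ⟨D, f, ⟨hf0, hD, hfv⟩, c, hc, hm⟩ := h
  obtain ⟨D', f', ⟨hf'0, hD', hf'v⟩, c', hc', hm'⟩ := h'
  refine ⟨D + D', f * f', ⟨mul_ne_zero hf0 hf'0, by rw [Pic0.mk_add, hD, hD'], fun v => ?_⟩,
    c * c', mul_ne_zero hc hc', ?_⟩
  · rw [v.ord_mul hf0 hf'0, ← hfv v, ← hf'v v, AddSubgroup.coe_add, Finsupp.add_apply]
    ring
  · have e : T (f * f') / algebraMap K F (c * c') =
        (T f / algebraMap K F c) * (T f' / algebraMap K F c') := by
      rw [map_mul, map_mul]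
      have h1 : algebraMap K F c ≠ 0 := (_root_.map_ne_zero _).2 hc
      have h2 : algebraMap K F c' ≠ 0 := (_root_.map_ne_zero _).2 hc'
      field_simp
    rw [e]
    exact s33g_pu_mul Wv hm hm'

theorem s33g_near_neg {q : ℕ} {Wv : ValuationSubring F} {T : F →ₐ[K] F} {y : Pic0 K F}
    (h : s33g_Near q Wv T y) : s33g_Near q Wv T (-y) := by
  obtain ⟨D, f, ⟨hf0, hD, hfv⟩, c, hc, hm⟩ := h
  refine ⟨-D, f⁻¹, ⟨inv_ne_zero hf0, ?_, fun v => ?_⟩, c⁻¹, inv_ne_zero hc, ?_⟩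
  · rw [← hD]; rfl
  · rw [v.ord_inv, ← hfv v, AddSubgroup.coe_neg, Finsupp.neg_apply]
    ring
  · have e : T f⁻¹ / algebraMap K F c⁻¹ = (T f / algebraMap K F c)⁻¹ := by
      rw [map_inv₀, map_inv₀, inv_div_inv, inv_div]
    rw [e]
    exact s33g_pu_inv Wv hm

/-- `g • f` represents `g • y`. -/
theorem s33g_rep_smul {q : ℕ} (g : SemilinearAut K F) {y : Pic0 K F}
    {D : Divisor.degZero (K := K) (F := F)} {f : F} (h : s44pe_Rep q y D f) :
    s44pe_Rep q (g • y) (SemilinearAut.degZeroSMulHom g D) (g • f) := by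
  obtain ⟨hf0, hD, hfv⟩ := h
  refine ⟨by simpa using hf0, ?_, fun v => ?_⟩
  · rw [← hD, SemilinearAut.pic0_smul_mk]
  · rw [SemilinearAut.coe_degZeroSMulHom, SemilinearAut.divisor_smul_apply, hfv (g⁻¹ • v),
      s44pe_ord_smul]

/-- the generators: `g • z - z` for an inertial `g` commuting with `T`. -/
theorem s33g_near_gen {q : ℕ} {Wv : ValuationSubring F} {T : F →ₐ[K] F}
    (hnrm : ∀ f : F, f ≠ 0 → ∃ c : K, c ≠ 0 ∧ algebraMap K F c * f ∈ Wv ∧
      (algebraMap K F c * f)⁻¹ ∈ Wv)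
    (g : SemilinearAut K F) (hinv : ∀ f ∈ Wv, g • f - f ∈ Wv.nonunits)
    (hT : ∀ f : F, T (g • f) = g • T f) (z : Pic0 K F) (hz : q • z = 0) :
    s33g_Near q Wv T (g • z - z) := by
  obtain ⟨D, f₀, hrep₀⟩ := s44pe_exists_rep q z hz
  have hTf₀ : T f₀ ≠ 0 := by
    rw [Ne, map_eq_zero]; exact hrep₀.1
  obtain ⟨c, hc, hu, hu'⟩ := hnrm (T f₀) hTf₀
  have hrep : s44pe_Rep q z D (algebraMap K F c * f₀) := hrep₀.const_mul hc
  have hTf : T (algebraMap K F c * f₀) = algebraMap K F c * T f₀ := by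
    rw [map_mul, AlgHom.commutes]
  generalize algebraMap K F c * f₀ = f at hrep hTf
  rw [← hTf] at hu hu'
  have hf0 : f ≠ 0 := hrep.1
  have hgrep := s33g_rep_smul g hrep
  have hgf0 : g • f ≠ 0 := hgrep.1
  refine ⟨SemilinearAut.degZeroSMulHom g D - D, g • f / f,
    ⟨div_ne_zero hgf0 hf0, ?_, fun v => ?_⟩, 1, one_ne_zero, ?_⟩
  · rw [sub_eq_add_neg, Pic0.mk_add, hgrep.2.1, sub_eq_add_neg]
    congr 1
    rw [← hrep.2.1]; rfl
  · rw [div_eq_mul_inv, v.ord_mul hgf0 (inv_ne_zero hf0), v.ord_inv, ← hgrep.2.2 v, ← hrep.2.2 v,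
      AddSubgroup.coe_sub, Finsupp.sub_apply]
    ring
  · rw [map_one, div_one, map_div₀, hT]
    have hTf0 : T f ≠ 0 := by
      rw [Ne, map_eq_zero]; exact hf0
    have e : g • T f / T f - 1 = (g • T f - T f) * (T f)⁻¹ := by
      field_simp
    rw [e, ValuationSubring.mem_nonunits_iff, map_mul]
    have h1 := Wv.mem_nonunits_iff.mp (hinv _ hu)
    have h2 := (Wv.valuation_le_one_iff _).mpr hu'
    calc Wv.valuation (g • T f - T f) * Wv.valuation (T f)⁻¹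
        ≤ Wv.valuation (g • T f - T f) * 1 := mul_le_mul_right h2 _
      _ = Wv.valuation (g • T f - T f) := mul_one _
      _ < 1 := h1

/-- the subgroup generated by the `g • z - z`. -/
theorem s33g_near_closure {q : ℕ} {Wv : ValuationSubring F} {T : F →ₐ[K] F}
    (hnrm : ∀ f : F, f ≠ 0 → ∃ c : K, c ≠ 0 ∧ algebraMap K F c * f ∈ Wv ∧
      (algebraMap K F c * f)⁻¹ ∈ Wv)
    (𝒢 : Set (SemilinearAut K F)) (hinv : ∀ g ∈ 𝒢, ∀ f ∈ Wv, g • f - f ∈ Wv.nonunits)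
    (hT : ∀ g ∈ 𝒢, ∀ f : F, T (g • f) = g • T f) {x : Pic0 K F}
    (hx : x ∈ AddSubgroup.closure
      {y : Pic0 K F | ∃ g ∈ 𝒢, ∃ z : Pic0 K F, q • z = 0 ∧ y = g • z - z}) :
    s33g_Near q Wv T x := by
  induction hx using AddSubgroup.closure_induction with
  | mem y hy =>
    obtain ⟨g, hg, z, hz, rfl⟩ := hy
    exact s33g_near_gen hnrm g (hinv g hg) (hT g hg) z hz
  | zero => exact s33g_near_zero q Wv T
  | add y y' _ _ h h' => exact s33g_near_add h h'
  | neg y _ h => exact s33g_near_neg h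

/-! ### `p ^ m`-th roots of principal units in residue characteristic `p` -/

/-- in residue characteristic `p`: `w ^ (p ^ m) ≡ 1 ⟹ w ≡ 1`. -/
theorem s33g_root (Wv : ValuationSubring F) {p : ℕ} (hp : p.Prime)
    (hpW : ((p : ℕ) : F) ∈ Wv.nonunits) (m : ℕ) {w : F} (hw : w ∈ Wv)
    (h : w ^ p ^ m - 1 ∈ Wv.nonunits) : w - 1 ∈ Wv.nonunits := by
  have : Fact p.Prime := ⟨hp⟩
  have hp0 : ((p : ℕ) : IsLocalRing.ResidueField ↥Wv) = 0 := by
    have h1 : ((p : ℕ) : ↥Wv) ∈ IsLocalRing.maximalIdeal ↥Wv := by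
      rw [← ValuationSubring.coe_mem_nonunits_iff]
      simpa using hpW
    have h2 := (IsLocalRing.residue_eq_zero_iff ((p : ℕ) : ↥Wv)).mpr h1
    rwa [map_natCast] at h2
  have : CharP (IsLocalRing.ResidueField ↥Wv) p := (CharP.charP_iff_prime_eq_zero hp).mpr hp0
  have h3 : (⟨w, hw⟩ : ↥Wv) ^ p ^ m - 1 ∈ IsLocalRing.maximalIdeal ↥Wv := by
    rw [← ValuationSubring.coe_mem_nonunits_iff]
    simpa using h
  have h4 := (IsLocalRing.residue_eq_zero_iff _).mpr h3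
  rw [map_sub, map_pow, map_one] at h4
  have h5 : (IsLocalRing.residue ↥Wv ⟨w, hw⟩ - 1) ^ p ^ m = 0 := by
    rw [sub_pow_char_pow, one_pow, h4]
  have h6 : IsLocalRing.residue ↥Wv ⟨w, hw⟩ - 1 = 0 := pow_eq_zero_iff (pow_ne_zero _ hp.ne_zero) |>.mp h5
  have h7 : (⟨w, hw⟩ : ↥Wv) - 1 ∈ IsLocalRing.maximalIdeal ↥Wv := by
    rw [← IsLocalRing.residue_eq_zero_iff, map_sub, map_one]
    exact h6
  rw [← ValuationSubring.coe_mem_nonunits_iff] at h7
  simpa using h7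

/-! ### the main statement -/

variable [IsAlgClosed K]

/-- **(INV+), abstract core.**  A `p`-torsion class which is `p ^ n`-near (`n ≥ 1`) has depth `> 0`
at `Wv ∘ T`: it is represented by `f` with `T f = h ^ p * (1 + y)`, `y ∈ 𝔪_{Wv}`. -/
theorem s33g_depth_of_near {p n : ℕ} (hp : p.Prime) (hn : 1 ≤ n) (x : Pic0 K F) (hx : p • x = 0)
    (hconst : ∀ u : F, u ≠ 0 → (∀ v : Place K F, v.ord u = 0) → ∃ c : K, u = algebraMap K F c)
    (Wv : ValuationSubring F) (hpW : ((p : ℕ) : F) ∈ Wv.nonunits)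
    (hnrm : ∀ f : F, f ≠ 0 → ∃ c : K, c ≠ 0 ∧ algebraMap K F c * f ∈ Wv ∧
      (algebraMap K F c * f)⁻¹ ∈ Wv)
    (T : F →ₐ[K] F) (hnear : s33g_Near (p ^ n) Wv T x) :
    ∃ f : F, (f ≠ 0 ∧ ∃ D : Divisor.degZero (K := K) (F := F), Pic0.mk D = x ∧
        ∀ v : Place K F, (p : ℤ) * (D : Divisor K F) v = v.ord f) ∧
      ∃ h y : F, h ≠ 0 ∧ y ∈ Wv.nonunits ∧ T f = h ^ p * (1 + y) := by
  obtain ⟨E, Fx, ⟨hF0, hE, hFv⟩, c, hc, hm⟩ := hnear
  obtain ⟨D, φ, hφ0, hD, hφv⟩ := s44pe_exists_rep p x hx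
  obtain ⟨m, rfl⟩ : ∃ m, n = m + 1 := ⟨n - 1, by omega⟩
  -- `E - D` is principal
  have hED : Pic0.mk E = Pic0.mk D := hE.trans hD.symm
  have h2 : E - D ∈ (Divisor.principal (K := K) (F := F)).addSubgroupOf
      (Divisor.degZero (K := K) (F := F)) := by
    have := (QuotientAddGroup.eq (s := (Divisor.principal (K := K) (F := F)).addSubgroupOf
      (Divisor.degZero (K := K) (F := F)))).mp hED.symm
    rw [neg_add_eq_sub] at this
    exact this
  rw [AddSubgroup.mem_addSubgroupOf] at h2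
  obtain ⟨h₀, hh₀, hD₀⟩ := h2
  have hD₀' : ∀ v : Place K F, v.ord h₀ = (E : Divisor K F) v - (D : Divisor K F) v := by
    intro v
    have := hD₀ v
    simp only [AddSubgroup.coe_sub, Finsupp.sub_apply] at this
    exact this.symm
  -- the new `p`-representative
  set φ' := φ * h₀ ^ p with hφ'
  have hφ'0 : φ' ≠ 0 := mul_ne_zero hφ0 (pow_ne_zero _ hh₀)
  have hφ'v : ∀ v : Place K F, (p : ℤ) * (E : Divisor K F) v = v.ord φ' := by
    intro v
    rw [hφ', v.ord_mul hφ0 (pow_ne_zero _ hh₀), ← zpow_natCast, v.ord_zpow, ← hφv v, hD₀' v]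
    ring
  clear_value φ'
  -- `Fx = a * φ' ^ (p ^ m)`
  have hq0 : φ' ^ p ^ m ≠ 0 := pow_ne_zero _ hφ'0
  have hord : ∀ v : Place K F, v.ord (Fx / φ' ^ p ^ m) = 0 := by
    intro v
    rw [div_eq_mul_inv, v.ord_mul hF0 (inv_ne_zero hq0), v.ord_inv, ← zpow_natCast, v.ord_zpow,
      ← hFv v, ← hφ'v v]
    push_cast
    ring
  obtain ⟨a, ha⟩ := hconst _ (div_ne_zero hF0 hq0) hord
  have ha0 : a ≠ 0 := by
    rintro rfl
    rw [map_zero] at ha
    exact div_ne_zero hF0 hq0 ha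
  have hFx : Fx = algebraMap K F a * φ' ^ p ^ m := (div_eq_iff hq0).mp ha
  -- normalise `T φ'`
  have hTφ'0 : T φ' ≠ 0 := by
    rw [Ne, map_eq_zero]; exact hφ'0
  obtain ⟨κ, hκ, hu, hu'⟩ := hnrm (T φ') hTφ'0
  set u := algebraMap K F κ * T φ' with hu_def
  have hκ' : algebraMap K F κ ≠ 0 := (_root_.map_ne_zero _).2 hκ
  have hu0 : u ≠ 0 := mul_ne_zero hκ' hTφ'0
  -- the constant
  obtain ⟨c₃, hc₃⟩ := IsAlgClosed.exists_pow_nat_eq (c * κ ^ p ^ m / a)
    (Nat.pos_of_ne_zero (pow_ne_zero m hp.ne_zero))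
  have hc₃0 : c₃ ≠ 0 := by
    rintro rfl
    rw [zero_pow (pow_ne_zero m hp.ne_zero)] at hc₃
    exact div_ne_zero (mul_ne_zero hc (pow_ne_zero _ hκ)) ha0 hc₃.symm
  have hc₃' : algebraMap K F c₃ ≠ 0 := (_root_.map_ne_zero _).2 hc₃0
  have hc' : algebraMap K F c ≠ 0 := (_root_.map_ne_zero _).2 hc
  have ha' : algebraMap K F a ≠ 0 := (_root_.map_ne_zero _).2 ha0
  set w := u / algebraMap K F c₃ with hw_def
  have e1 : algebraMap K F (c * κ ^ p ^ m / a) =
      algebraMap K F c * algebraMap K F κ ^ p ^ m / algebraMap K F a := by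
    rw [map_div₀, map_mul, map_pow]
  have e2 : T Fx = algebraMap K F a * T φ' ^ p ^ m := by
    rw [hFx, map_mul, AlgHom.commutes, map_pow]
  have hwpow : w ^ p ^ m = T Fx / algebraMap K F c := by
    rw [hw_def, div_pow, ← map_pow, hc₃, e1, e2, hu_def, mul_pow]
    field_simp
  -- `w` is a unit of `Wv`
  have hPval : Wv.valuation (T Fx / algebraMap K F c) = 1 := by
    have h1 := Wv.mem_nonunits_iff.mp hm
    have h3 : T Fx / algebraMap K F c = (T Fx / algebraMap K F c - 1) + 1 := by ring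
    rw [h3]
    exact Valuation.map_add_eq_of_lt_right _ (by rw [map_one]; exact h1) |>.trans (map_one _)
  have hwval : Wv.valuation w = 1 := by
    have h1 : Wv.valuation w ^ p ^ m = 1 := by rw [← map_pow, hwpow, hPval]
    have hq : p ^ m ≠ 0 := pow_ne_zero m hp.ne_zero
    rcases lt_trichotomy (Wv.valuation w) 1 with h2 | h2 | h2
    · exact absurd h1 (pow_lt_one₀ zero_le h2 hq).ne
    · exact h2
    · exact absurd h1 (one_lt_pow₀ h2 hq).ne'
  have hwmem : w ∈ Wv := (Wv.valuation_le_one_iff w).mp hwval.le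
  have hw1 : w - 1 ∈ Wv.nonunits := s33g_root Wv hp hpW m hwmem (by rw [hwpow]; exact hm)
  -- the `p`-th root of the constant
  obtain ⟨h₁, hh₁⟩ := IsAlgClosed.exists_pow_nat_eq (c₃ / κ) hp.pos
  have hh₁0 : h₁ ≠ 0 := by
    rintro rfl
    rw [zero_pow hp.ne_zero] at hh₁
    exact div_ne_zero hc₃0 hκ hh₁.symm
  refine ⟨φ', ⟨hφ'0, E, hE, hφ'v⟩, algebraMap K F h₁, w - 1, (_root_.map_ne_zero _).2 hh₁0, hw1, ?_⟩
  rw [← map_pow, hh₁, map_div₀, hw_def, hu_def]
  field_simp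
  ring

end Fermat.Agent.S33
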