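/-
S33 project, cell [S33-GEO] (helper9; prefix `s33g_`; design: helper27's study of S33).

`N = M p`, `p ∤ M`, `p` odd, `A` ANY place of `ℚ̄` over `p`, `I` its inertia group.

* `s33g_depth` : **(INV+)** for `J₀(N)`: a `p`-torsion class in the subgroup generated by the
  `σ z - z` (`σ ∈ I`, `p ^ n • z = 0`) has depth `> 0` at `w_∞ ∘ T`, for every `ℚ̄`-algebra
  endomorphism `T` of `F̄_N` commuting with `I` (`T = id`, `T = W̄_p`);
* `s33g_core`  : **(GEO), the `n = 1` core**: if moreover both degeneracy maps kill `x`, then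
  `τ₀ x = c x` for every `τ₀ ∈ I` acting on `μ_p` through `ζ ↦ ζ ^ c`.
  [(INV+) ⟹ [D2] `s44dq_core` ⟹ every depth ⟹ [G3] `s44t_TorBar` ⟹ Kummer relation.]
-/
import Mathlib
import Fermat.Agent.S33.Geo.NearAbs
import Fermat.Agent.S44.PsiEig.Main
import Fermat.Agent.S44.DQbar.Main
import Fermat.Agent.S44.Tor.Main

set_option autoImplicit false
set_option linter.unusedSectionVars false

noncomputable section

namespace Fermat.Agent.S33

open ModularCurve AlgebraicCurve Fermat.Agent.JT3 Fermat.Agent.SS Fermat.Agent.S35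
  Fermat.Agent.S44

local notation "Qb" => AlgebraicClosure ℚ

section

variable (M p : ℕ) [NeZero M] [NeZero p] (hp : p.Prime) (hpM : ¬ p ∣ M)
  (A : ValuationSubring Qb) (hA : A.LiesOverPrime p)

include hp hA in
/-- **(INV+)** for `J₀(M p)`. -/
theorem s33g_depth (n : ℕ)
    (T : modularFunctionFieldBar (M * p) →ₐ[Qb] modularFunctionFieldBar (M * p))
    (hT : ∀ σ ∈ A.inertiaSubgroupIn ℚ, ∀ f : modularFunctionFieldBar (M * p),
      T (arithmeticGalois (modularFunctionFieldFull (M * p)) σ • f) =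
        arithmeticGalois (modularFunctionFieldFull (M * p)) σ • T f)
    (x : JZero (M * p)) (hx : p • x = 0)
    (hI : x ∈ AddSubgroup.closure {y : JZero (M * p) | ∃ σ ∈ A.inertiaSubgroupIn ℚ,
      ∃ z : JZero (M * p), p ^ n • z = 0 ∧ y = σ • z - z}) :
    ∃ c : Qb, c ≠ 0 ∧ c ∈ A.nonunits ∧ s44f_Depth2 (M * p) A p c T x := by
  have hp0 : p ≠ 0 := hp.ne_zero
  set Wv := s44pg_W A hA hp0 (M * p) with hWv
  have hnrm : ∀ f : modularFunctionFieldBar (M * p), f ≠ 0 → ∃ c : Qb, c ≠ 0 ∧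
      algebraMap Qb (modularFunctionFieldBar (M * p)) c * f ∈ Wv ∧
      (algebraMap Qb (modularFunctionFieldBar (M * p)) c * f)⁻¹ ∈ Wv :=
    fun f hf => s44pg_nrm A hA hp0 (M * p) hf
  have hpW : ((p : ℕ) : modularFunctionFieldBar (M * p)) ∈ Wv.nonunits := by
    have h1 := (s44pg_const_mem_nonunits A hA hp0 (M * p) (p : Qb)).2 hA
    rwa [map_natCast] at h1
  -- the set of semilinear automorphisms
  set 𝒢 : Set (SemilinearAut Qb (modularFunctionFieldBar (M * p))) :=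
    {g | ∃ σ ∈ A.inertiaSubgroupIn ℚ, g = arithmeticGalois (modularFunctionFieldFull (M * p)) σ}
    with h𝒢
  have hinv : ∀ g ∈ 𝒢, ∀ f ∈ Wv, g • f - f ∈ Wv.nonunits := by
    rintro g ⟨σ, hσ, rfl⟩ f hf
    exact s44pe_inv (M * p) A Wv (fun b => s44pg_mem_iff A hA hp0 (M * p) b) σ hσ f hf
  have hT' : ∀ g ∈ 𝒢, ∀ f : modularFunctionFieldBar (M * p), T (g • f) = g • T f := by
    rintro g ⟨σ, hσ, rfl⟩ f
    exact hT σ hσ f
  -- `n ≥ 1` without loss of generality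
  have hI' : x ∈ AddSubgroup.closure {y : JZero (M * p) | ∃ g ∈ 𝒢, ∃ z : JZero (M * p),
      p ^ (n + 1) • z = 0 ∧ y = g • z - z} := by
    refine AddSubgroup.closure_mono ?_ hI
    rintro y ⟨σ, hσ, z, hz, rfl⟩
    refine ⟨_, ⟨σ, hσ, rfl⟩, z, ?_, rfl⟩
    rw [pow_succ, mul_comm (p ^ n) p, mul_smul, hz, smul_zero]
  have hnear := s33g_near_closure hnrm 𝒢 hinv hT' hI'
  obtain ⟨f, ⟨hf0, D, hD, hord⟩, h, y, hh, hy, hTf⟩ :=
    s33g_depth_of_near hp (Nat.le_add_left 1 n) x hx (s44pe_hconst (M * p)) Wv hpW hnrm T hnear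
  obtain ⟨c, hc0, hcA, b, hb, hyb⟩ := (s44pg_mem_nonunits_iff A hA hp0 (M * p) y).1 hy
  exact ⟨c, hc0, hcA, f, ⟨hf0, D, hD, hord⟩, h, b, hh,
    (s44pg_mem_iff A hA hp0 (M * p) b).1 hb, by rw [hTf, hyb]⟩

include hp hpM hA in
/-- **(GEO), the `n = 1` core.** -/
theorem s33g_core (hp2 : ¬ 2 ∣ p) (n : ℕ) (τ₀ : Qb ≃ₐ[ℚ] Qb)
    (hτ₀ : τ₀ ∈ A.inertiaSubgroupIn ℚ) (c : ℕ) (ζ : Qb) (hζ1 : ζ ^ p = 1) (hζ2 : ζ ≠ 1)
    (hc : τ₀ ζ = ζ ^ c) (x : JZero (M * p)) (hx : p • x = 0)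
    (has : s35p_P1J M p x = 0) (hbs : s35p_P2J M p x = 0)
    (hI : x ∈ AddSubgroup.closure {y : JZero (M * p) | ∃ σ ∈ A.inertiaSubgroupIn ℚ,
      ∃ z : JZero (M * p), p ^ n • z = 0 ∧ y = σ • z - z}) :
    τ₀ • x = c • x := by
  haveI : Fact p.Prime := ⟨hp⟩
  have hp0 : p ≠ 0 := hp.ne_zero
  obtain ⟨c₁, -, hc₁A, h1⟩ := s33g_depth M p hp A hA n (AlgHom.id _ _) (fun _ _ _ => rfl) x hx hI
  obtain ⟨c₀, -, hc₀A, h0⟩ := s33g_depth M p hp A hA n (ssm_al_Wbar M p hp hpM)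
    (fun σ _ f => s44pe_Wbar_smul M p hp hpM σ f) x hx hI
  obtain ⟨π, hπA, hπ0, h⟩ := s44dq_core M p hpM A hA x hx has hbs hc₁A hc₀A h1 h0
  -- depth `p ^ 2`
  have hpp0 : ((p : Qb)) ^ 2 ≠ 0 := pow_ne_zero _ (by exact_mod_cast hp0)
  obtain ⟨n₁, hn₁⟩ := s44b_A_arch' A hp hA hpp0 hπA hπ0
  have hd := h (max 1 n₁) (le_max_left _ _)
  have hn := hn₁ (max 1 n₁) (le_max_right _ _)
  have d1 := s44b_depth2_mono' (M * p) A p hpp0 hn _ hd.1
  have d0 := s44b_depth2_mono' (M * p) A p hpp0 hn _ hd.2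
  obtain ⟨f, hf⟩ := s44b_rep_exists (M * p) hx
  have e1 := s44b_depth2_any_rep (M * p) A hp0 (AlgHom.id _ _) d1 hf
  have e0 := s44b_depth2_any_rep (M * p) A hp0 (ssm_al_Wbar M p hp hpM) d0 hf
  have hord : ∀ v : Place Qb (modularFunctionFieldBar (M * p)), (p : ℤ) ∣ v.ord f := by
    obtain ⟨-, D, -, hD⟩ := hf
    exact fun v => ⟨_, (hD v).symm⟩
  have hTor : s44t_TorBar M p hp hpM :=
    s44t_torBar_of_core M p hp hp2 hpM (s44t_coreNFP_of M p hp hp2 hpM (s44t_absCoreLeg M p))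
  obtain ⟨c', r, hr, hcr⟩ := hTor A hA τ₀ hτ₀ ζ c hζ1 hζ2 hc f hf.1 hord e1 e0
  have hc'0 : c' ≠ 0 := by
    rintro rfl
    rw [map_zero, zero_mul, zero_mul] at hcr
    have : arithmeticGalois (modularFunctionFieldFull (M * p)) τ₀ • f ≠ 0 := by
      rw [Ne, smul_eq_zero_iff_eq]; exact hf.1
    exact this hcr
  refine s44b_smul_eq_nsmul_of_kummer (M * p) hp0 τ₀ c hf ⟨c', r, hc'0, hr, ?_⟩
  rw [show arithmeticGalois (modularFunctionFieldFull (M * p)) τ₀ • f = ss_act (M * p) τ₀ f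
    from rfl, hcr]
  ring

end

end Fermat.Agent.S33
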