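/-
S33 project, cell [S33-GEO] (helper9; prefix `s33g_`; design: helper27's study of S33).

`N = M p`, `p ∤ M`, `p` odd, `A` ANY place of `ℚ̄` over `p`, `I = Γ` its inertia group,
`τ₀ ∈ I` acting on `μ_p` through `ζ ↦ ζ ^ c`, `𝒜 := τ₀ - c` (`s33a_A τ₀ c` of `S33/Alg.lean`).

* `s33g_X M p A n`  : `X_n = ker (α_p)_* ∩ ker (β_p)_* ∩ (I - 1) J₀(N)[p ^ n]`, an `I`-stable subgroup
  killed by `p ^ n` (`s33g_X_stable`, `s33g_X_pow`);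
* `s33g_nilp`       : **(GEO)** `𝒜 ^ n = 0` on `X_n`  [`s33g_core` on `X_n[p]` + `s33a_devissage`];
* `s33g_nilp_fam`   : the same in the shape of the hypothesis `hgeo` of `s33a_key` ([ALG-KEY]):
  `G1` any `I`-module killed by `p ^ n` with a jointly injective family of equivariant maps
  `ev i : G1 →+ J₀(N)`; then `𝒜 ^ n y = 0` for every `y ∈ (I - 1) G1` whose coordinates are killed by
  both degeneracy maps;
* `s33g_nilp_fam'`  : the same with `c` given by its action on all `p ^ n`-th roots of unity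
  (the shape of `cya_eps_spec` / `cya_chi_spec`).
-/
import Mathlib
import Fermat.Agent.S33.Geo.Core
import Fermat.Agent.S33.Alg

set_option autoImplicit false
set_option linter.unusedSectionVars false

noncomputable section

namespace Fermat.Agent.S33

open ModularCurve AlgebraicCurve Fermat.Agent.JT3 Fermat.Agent.SS Fermat.Agent.S35
  Fermat.Agent.S44

local notation "Qb" => AlgebraicClosure ℚ

section Helpers

variable (N : ℕ) [NeZero N]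

theorem s33g_gal_zero (σ : Qb ≃ₐ[ℚ] Qb) : σ • (0 : JZero N) = 0 :=
  smul_zero (A := JZero N) σ

theorem s33g_gal_add (σ : Qb ≃ₐ[ℚ] Qb) (x y : JZero N) : σ • (x + y) = σ • x + σ • y :=
  smul_add (A := JZero N) σ x y

theorem s33g_gal_neg (σ : Qb ≃ₐ[ℚ] Qb) (x : JZero N) : σ • (-x) = -(σ • x) :=
  smul_neg (A := JZero N) σ x

theorem s33g_gal_sub (σ : Qb ≃ₐ[ℚ] Qb) (x y : JZero N) : σ • (x - y) = σ • x - σ • y :=
  smul_sub (A := JZero N) σ x y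

theorem s33g_gal_nsmul (σ : Qb ≃ₐ[ℚ] Qb) (m : ℕ) (x : JZero N) : σ • (m • x) = m • (σ • x) :=
  map_nsmul (DistribSMul.toAddMonoidHom (JZero N) σ) m x

end Helpers

section

variable (M p : ℕ) [NeZero M] [NeZero p] (A : ValuationSubring Qb)

/-- `(I - 1) J₀(N)[p ^ n]`, in the shape of the hypothesis `hI` of `s33g_core`. -/
def s33g_aug (n : ℕ) : AddSubgroup (JZero (M * p)) :=
  AddSubgroup.closure {y : JZero (M * p) | ∃ σ ∈ A.inertiaSubgroupIn ℚ,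
    ∃ z : JZero (M * p), p ^ n • z = 0 ∧ y = σ • z - z}

/-- `X_n = ker (α_p)_* ∩ ker (β_p)_* ∩ (I - 1) J₀(N)[p ^ n]`. -/
def s33g_X (n : ℕ) : AddSubgroup (JZero (M * p)) :=
  ((s35p_P1J M p).ker ⊓ (s35p_P2J M p).ker) ⊓ s33g_aug M p A n

theorem s33g_mem_X (n : ℕ) (x : JZero (M * p)) :
    x ∈ s33g_X M p A n ↔
      s35p_P1J M p x = 0 ∧ s35p_P2J M p x = 0 ∧ x ∈ s33g_aug M p A n := by
  unfold s33g_X
  rw [AddSubgroup.mem_inf, AddSubgroup.mem_inf, AddMonoidHom.mem_ker, AddMonoidHom.mem_ker,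
    and_assoc]

theorem s33g_aug_pow (n : ℕ) {x : JZero (M * p)} (hx : x ∈ s33g_aug M p A n) :
    p ^ n • x = 0 := by
  unfold s33g_aug at hx
  induction hx using AddSubgroup.closure_induction with
  | mem x hx =>
    obtain ⟨σ, -, z, hz, rfl⟩ := hx
    rw [nsmul_sub, ← s33g_gal_nsmul, hz, s33g_gal_zero, sub_zero]
  | zero => rw [nsmul_zero]
  | add x y _ _ hx hy => rw [nsmul_add, hx, hy, add_zero]
  | neg x _ hx => rw [neg_nsmul, hx, neg_zero]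

theorem s33g_aug_stable (n : ℕ) (τ : Qb ≃ₐ[ℚ] Qb) (hτ : τ ∈ A.inertiaSubgroupIn ℚ)
    {x : JZero (M * p)} (hx : x ∈ s33g_aug M p A n) : τ • x ∈ s33g_aug M p A n := by
  unfold s33g_aug at hx ⊢
  induction hx using AddSubgroup.closure_induction with
  | mem x hx =>
    obtain ⟨σ, hσ, z, hz, rfl⟩ := hx
    have h1 : τ • (σ • z - z) = (τ * σ * τ⁻¹) • (τ • z) - τ • z := by
      rw [s33g_gal_sub, ← mul_smul, ← mul_smul, inv_mul_cancel_right]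
    rw [h1]
    refine AddSubgroup.subset_closure ⟨τ * σ * τ⁻¹, ?_, τ • z, ?_, rfl⟩
    · exact Subgroup.mul_mem _ (Subgroup.mul_mem _ hτ hσ) (Subgroup.inv_mem _ hτ)
    · rw [← s33g_gal_nsmul, hz, s33g_gal_zero]
  | zero => rw [s33g_gal_zero]; exact AddSubgroup.zero_mem _
  | add x y _ _ hx hy => rw [s33g_gal_add]; exact AddSubgroup.add_mem _ hx hy
  | neg x _ hx => rw [s33g_gal_neg]; exact AddSubgroup.neg_mem _ hx

theorem s33g_X_pow (n : ℕ) {x : JZero (M * p)} (hx : x ∈ s33g_X M p A n) : p ^ n • x = 0 :=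
  s33g_aug_pow M p A n ((s33g_mem_X M p A n x).1 hx).2.2

theorem s33g_X_stable (n : ℕ) (τ : ↥(A.inertiaSubgroupIn ℚ)) :
    ∀ x ∈ s33g_X M p A n, τ • x ∈ s33g_X M p A n := by
  intro x hx
  rw [s33g_mem_X] at hx ⊢
  rw [Subgroup.smul_def]
  refine ⟨?_, ?_, s33g_aug_stable M p A n τ.1 τ.2 hx.2.2⟩
  · rw [s35p_P1J_smul, hx.1, s33g_gal_zero]
  · rw [s35p_P2J_smul, hx.2.1, s33g_gal_zero]

variable (hp : p.Prime) (hpM : ¬ p ∣ M) (hA : A.LiesOverPrime p)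

include hp hpM hA in
/-- **(GEO)**: `𝒜 ^ n = 0` on `X_n`. -/
theorem s33g_nilp (hp2 : ¬ 2 ∣ p) (n : ℕ) (τ₀ : ↥(A.inertiaSubgroupIn ℚ)) (c : ℕ) (ζ : Qb)
    (hζ1 : ζ ^ p = 1) (hζ2 : ζ ≠ 1) (hc : (τ₀ : Qb ≃ₐ[ℚ] Qb) ζ = ζ ^ c)
    {x : JZero (M * p)} (hx : x ∈ s33g_X M p A n) :
    (⇑(s33a_A (G := JZero (M * p)) τ₀ (c : ℤ)))^[n] x = 0 := by
  refine s33a_devissage (s33g_X M p A n) (s33g_X_stable M p A n) p τ₀ (c : ℤ) ?_ n hx
    (s33g_X_pow M p A n hx)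
  intro y hy hpy
  rw [s33g_mem_X] at hy
  rw [s33a_A_apply, Subgroup.smul_def, natCast_zsmul, sub_eq_zero]
  exact s33g_core M p hp hpM A hA hp2 n τ₀.1 τ₀.2 c ζ hζ1 hζ2 hc y hpy hy.1 hy.2.1 hy.2.2

include hp hpM hA in
/-- **(GEO)** in the shape of the hypothesis `hgeo` of `s33a_key`. -/
theorem s33g_nilp_fam (hp2 : ¬ 2 ∣ p) (n : ℕ) (τ₀ : ↥(A.inertiaSubgroupIn ℚ)) (c : ℕ) (ζ : Qb)
    (hζ1 : ζ ^ p = 1) (hζ2 : ζ ≠ 1) (hc : (τ₀ : Qb ≃ₐ[ℚ] Qb) ζ = ζ ^ c)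
    {G1 : Type*} [AddCommGroup G1] [DistribMulAction ↥(A.inertiaSubgroupIn ℚ) G1]
    {ι : Type*} (ev : ι → G1 →+ JZero (M * p))
    (hev : ∀ (i : ι) (σ : ↥(A.inertiaSubgroupIn ℚ)) (y : G1), ev i (σ • y) = σ • ev i y)
    (hinj : ∀ y : G1, (∀ i, ev i y = 0) → y = 0) (hpn : ∀ y : G1, p ^ n • y = 0)
    {y : G1} (hy : y ∈ s33a_aug ↥(A.inertiaSubgroupIn ℚ) G1)
    (hψ : ∀ i, s35p_P1J M p (ev i y) = 0 ∧ s35p_P2J M p (ev i y) = 0) :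
    (⇑(s33a_A (G := G1) τ₀ (c : ℤ)))^[n] y = 0 := by
  refine hinj _ fun i => ?_
  rw [s33a_map_iter (ev i) (hev i)]
  refine s33g_nilp M p A hp hpM hA hp2 n τ₀ c ζ hζ1 hζ2 hc ?_
  rw [s33g_mem_X]
  refine ⟨(hψ i).1, (hψ i).2, ?_⟩
  -- the image of `(I - 1) G1` lies in `(I - 1) J[p ^ n]`
  clear hψ
  unfold s33a_aug at hy
  unfold s33g_aug
  induction hy using AddSubgroup.closure_induction with
  | mem x hx =>
    obtain ⟨σ, z, rfl⟩ := hx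
    rw [map_sub, hev, Subgroup.smul_def]
    refine AddSubgroup.subset_closure ⟨σ.1, σ.2, ev i z, ?_, rfl⟩
    rw [← map_nsmul, hpn, map_zero]
  | zero => rw [map_zero]; exact AddSubgroup.zero_mem _
  | add x y _ _ hx hy => rw [map_add]; exact AddSubgroup.add_mem _ hx hy
  | neg x _ hx => rw [map_neg]; exact AddSubgroup.neg_mem _ hx

include hp hpM hA in
/-- **(GEO)**, `c` given by the action of `τ₀` on all `p ^ n`-th roots of unity. -/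
theorem s33g_nilp_fam' (hp2 : ¬ 2 ∣ p) (n : ℕ) (τ₀ : ↥(A.inertiaSubgroupIn ℚ)) (c : ℕ)
    (hc : ∀ μ : Qb, μ ^ p ^ n = 1 → (τ₀ : Qb ≃ₐ[ℚ] Qb) μ = μ ^ c)
    {G1 : Type*} [AddCommGroup G1] [DistribMulAction ↥(A.inertiaSubgroupIn ℚ) G1]
    {ι : Type*} (ev : ι → G1 →+ JZero (M * p))
    (hev : ∀ (i : ι) (σ : ↥(A.inertiaSubgroupIn ℚ)) (y : G1), ev i (σ • y) = σ • ev i y)
    (hinj : ∀ y : G1, (∀ i, ev i y = 0) → y = 0) (hpn : ∀ y : G1, p ^ n • y = 0)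
    {y : G1} (hy : y ∈ s33a_aug ↥(A.inertiaSubgroupIn ℚ) G1)
    (hψ : ∀ i, s35p_P1J M p (ev i y) = 0 ∧ s35p_P2J M p (ev i y) = 0) :
    (⇑(s33a_A (G := G1) τ₀ (c : ℤ)))^[n] y = 0 := by
  rcases Nat.eq_zero_or_pos n with rfl | hn
  · have := hpn y
    rwa [pow_zero, one_smul] at this
  · haveI : NeZero p := ⟨hp.ne_zero⟩
    obtain ⟨ζ, hζ⟩ := HasEnoughRootsOfUnity.exists_primitiveRoot Qb p
    have hζ1 : ζ ^ p = 1 := hζ.pow_eq_one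
    have hζ2 : ζ ≠ 1 := hζ.ne_one hp.one_lt
    have hζn : ζ ^ p ^ n = 1 := by
      obtain ⟨k, rfl⟩ := Nat.exists_eq_succ_of_ne_zero hn.ne'
      rw [pow_succ', pow_mul, hζ1, one_pow]
    exact s33g_nilp_fam M p A hp hpM hA hp2 n τ₀ c ζ hζ1 hζ2 (hc ζ hζn) ev hev hinj hpn hy hψ

include hp hpM hA in
/-- **(GEO)**, `c` given by the action of `τ₀` on `μ_p` (the shape of `s33s_tau0`), unfolded
hypotheses (the shape of the (GEO-adapter) of `Top/Fin.lean`). -/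
theorem s33g_nilp1 (hp2 : ¬ 2 ∣ p) (n : ℕ) (τ₀ : ↥(A.inertiaSubgroupIn ℚ)) (c : ℕ)
    (hc : ∀ μ : Qb, μ ^ p = 1 → (τ₀ : Qb ≃ₐ[ℚ] Qb) μ = μ ^ c)
    (x : JZero (M * p)) (has : s35p_P1J M p x = 0) (hbs : s35p_P2J M p x = 0)
    (hI : x ∈ AddSubgroup.closure {y : JZero (M * p) | ∃ σ ∈ A.inertiaSubgroupIn ℚ,
      ∃ z : JZero (M * p), p ^ n • z = 0 ∧ y = σ • z - z}) :
    (⇑(s33a_A (G := JZero (M * p)) τ₀ (c : ℤ)))^[n] x = 0 := by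
  haveI : NeZero p := ⟨hp.ne_zero⟩
  obtain ⟨ζ, hζ⟩ := HasEnoughRootsOfUnity.exists_primitiveRoot Qb p
  exact s33g_nilp M p A hp hpM hA hp2 n τ₀ c ζ hζ.pow_eq_one (hζ.ne_one hp.one_lt)
    (hc ζ hζ.pow_eq_one) ((s33g_mem_X M p A n x).2 ⟨has, hbs, hI⟩)

include hp hpM hA in
/-- **(GEO)** in the shape of `hgeo` of `s33a_key`, `c` given by the action of `τ₀` on `μ_p`. -/
theorem s33g_nilp_fam1 (hp2 : ¬ 2 ∣ p) (n : ℕ) (τ₀ : ↥(A.inertiaSubgroupIn ℚ)) (c : ℕ)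
    (hc : ∀ μ : Qb, μ ^ p = 1 → (τ₀ : Qb ≃ₐ[ℚ] Qb) μ = μ ^ c)
    {G1 : Type*} [AddCommGroup G1] [DistribMulAction ↥(A.inertiaSubgroupIn ℚ) G1]
    {ι : Type*} (ev : ι → G1 →+ JZero (M * p))
    (hev : ∀ (i : ι) (σ : ↥(A.inertiaSubgroupIn ℚ)) (y : G1), ev i (σ • y) = σ • ev i y)
    (hinj : ∀ y : G1, (∀ i, ev i y = 0) → y = 0) (hpn : ∀ y : G1, p ^ n • y = 0)
    {y : G1} (hy : y ∈ s33a_aug ↥(A.inertiaSubgroupIn ℚ) G1)
    (hψ : ∀ i, s35p_P1J M p (ev i y) = 0 ∧ s35p_P2J M p (ev i y) = 0) :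
    (⇑(s33a_A (G := G1) τ₀ (c : ℤ)))^[n] y = 0 := by
  haveI : NeZero p := ⟨hp.ne_zero⟩
  obtain ⟨ζ, hζ⟩ := HasEnoughRootsOfUnity.exists_primitiveRoot Qb p
  exact s33g_nilp_fam M p A hp hpM hA hp2 n τ₀ c ζ hζ.pow_eq_one (hζ.ne_one hp.one_lt)
    (hc ζ hζ.pow_eq_one) ev hev hinj hpn hy hψ

end

end Fermat.Agent.S33
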