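/-
S33, cell [S33-GEO], abstract core of (INV+) (helper26; prefix `s33gi_`).

`F/K` a function field over an algebraically closed field, `Wv` a valuation subring of `F` of
residue characteristic `p` whose value group is that of the constants (`hnrm`), `Γ` a set of
semilinear automorphisms acting trivially on the residue field of `Wv` (`hinv`).
If a `p`-torsion class `x` is a sum of classes `g • z - z`, `g ∈ Γ`, `z` killed by `p ^ n`, then
`x` has depth `≥ 1` at `Wv` (`s44pe_Depth1 p Wv x`, the vocabulary of S44/PsiEig/Core):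
`x` is represented by `(D, f)` with `f / h ^ p ≡ 1 mod 𝔪`.

The only place where `p ^ n`-torsion meets the geometry: `p ^ n`-th roots are unique in
characteristic `p`.
-/
import Mathlib
import Fermat.Agent.S44.PsiEig.CoreT

set_option autoImplicit false
set_option linter.unusedSectionVars false
set_option linter.unusedVariables false
set_option linter.style.haveILetI false

namespace Fermat.Agent.S33

open AlgebraicCurve Fermat.Agent.S24 Fermat.Agent.S44

universe u v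
variable {K : Type u} {F : Type v} [Field K] [Field F] [Algebra K F]

/-! ### principal units -/

/-- principal units of a valuation subring. -/
def s33gi_PU (Wv : ValuationSubring F) (E : F) : Prop := E - 1 ∈ Wv.nonunits

theorem s33gi_PU_iff (Wv : ValuationSubring F) (E : F) :
    s33gi_PU Wv E ↔ Wv.valuation (E - 1) < 1 :=
  ValuationSubring.mem_nonunits_iff _

theorem s33gi_PU.val_eq_one {Wv : ValuationSubring F} {E : F} (h : s33gi_PU Wv E) :
    Wv.valuation E = 1 := by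
  have h1 := Wv.valuation.map_one_add_of_lt ((s33gi_PU_iff Wv E).1 h)
  rwa [add_sub_cancel] at h1

theorem s33gi_PU.ne_zero {Wv : ValuationSubring F} {E : F} (h : s33gi_PU Wv E) : E ≠ 0 := by
  rintro rfl
  have := h.val_eq_one
  rw [map_zero] at this
  exact zero_ne_one this

theorem s33gi_PU_one (Wv : ValuationSubring F) : s33gi_PU Wv 1 := by
  rw [s33gi_PU_iff, sub_self, map_zero]
  exact zero_lt_one

theorem s33gi_PU.mul {Wv : ValuationSubring F} {E E' : F} (h : s33gi_PU Wv E)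
    (h' : s33gi_PU Wv E') : s33gi_PU Wv (E * E') := by
  rw [s33gi_PU_iff] at h h' ⊢
  have e : E * E' - 1 = (E - 1) * E' + (E' - 1) := by ring
  rw [e]
  refine lt_of_le_of_lt (Valuation.map_add _ _ _) (max_lt ?_ h')
  rw [map_mul, ((s33gi_PU_iff Wv E').2 h').val_eq_one, mul_one]
  exact h

theorem s33gi_PU.inv {Wv : ValuationSubring F} {E : F} (h : s33gi_PU Wv E) : s33gi_PU Wv E⁻¹ := by
  have h0 := h.ne_zero
  have hv := h.val_eq_one
  rw [s33gi_PU_iff] at h ⊢
  have e : E⁻¹ - 1 = -(E - 1) * E⁻¹ := by field_simp; ring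
  rw [e, map_mul, Valuation.map_neg, map_inv₀, hv, inv_one, mul_one]
  exact h

theorem s33gi_PU.div {Wv : ValuationSubring F} {E E' : F} (h : s33gi_PU Wv E)
    (h' : s33gi_PU Wv E') : s33gi_PU Wv (E / E') := by
  rw [div_eq_mul_inv]
  exact h.mul h'.inv

theorem s33gi_PU.pow {Wv : ValuationSubring F} {E : F} (h : s33gi_PU Wv E) (k : ℕ) :
    s33gi_PU Wv (E ^ k) := by
  induction k with
  | zero => rw [pow_zero]; exact s33gi_PU_one Wv
  | succ k ih => rw [pow_succ]; exact ih.mul h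

/-! ### representatives -/

theorem s33gi_rep_zero (m : ℕ) : s44pe_Rep m (0 : Pic0 K F) 0 (1 : F) :=
  ⟨one_ne_zero, rfl, fun v => by simp⟩

theorem s33gi_rep_add {m : ℕ} {y y' : Pic0 K F} {D D' : Divisor.degZero (K := K) (F := F)}
    {f f' : F} (h : s44pe_Rep m y D f) (h' : s44pe_Rep m y' D' f') :
    s44pe_Rep m (y + y') (D + D') (f * f') := by
  refine ⟨mul_ne_zero h.1 h'.1, ?_, fun v => ?_⟩
  · rw [Pic0.mk_add, h.2.1, h'.2.1]
  · rw [v.ord_mul h.1 h'.1, ← h.2.2 v, ← h'.2.2 v]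
    simp [mul_add]

theorem s33gi_rep_neg {m : ℕ} {y : Pic0 K F} {D : Divisor.degZero (K := K) (F := F)}
    {f : F} (h : s44pe_Rep m y D f) : s44pe_Rep m (-y) (-D) f⁻¹ := by
  refine ⟨inv_ne_zero h.1, ?_, fun v => ?_⟩
  · rw [← h.2.1]; rfl
  · rw [v.ord_inv, ← h.2.2 v]
    simp

/-- the representative `g • f / f` of `g • z - z`. -/
theorem s33gi_rep_smul_sub {m : ℕ} {z : Pic0 K F} {D : Divisor.degZero (K := K) (F := F)}
    {f : F} (h : s44pe_Rep m z D f) (g : SemilinearAut K F) :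
    s44pe_Rep m (g • z - z) (SemilinearAut.degZeroSMulHom g D - D) (g • f / f) := by
  have hgf : g • f ≠ 0 := by simpa using h.1
  refine ⟨div_ne_zero hgf h.1, ?_, fun v => ?_⟩
  · rw [← h.2.1, SemilinearAut.pic0_smul_mk]
    rfl
  · rw [div_eq_mul_inv, v.ord_mul hgf (inv_ne_zero h.1), v.ord_inv, s44pe_ord_smul, ← h.2.2,
      ← h.2.2]
    simp only [AddSubgroup.coe_sub, SemilinearAut.coe_degZeroSMulHom, Finsupp.sub_apply,
      SemilinearAut.divisor_smul_apply]
    ring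

/-- `g • f / f` is a constant times a principal unit. -/
theorem s33gi_smul_div_PU (Wv : ValuationSubring F)
    (hnrm : ∀ f : F, f ≠ 0 → ∃ c : K, c ≠ 0 ∧ algebraMap K F c * f ∈ Wv ∧
      (algebraMap K F c * f)⁻¹ ∈ Wv)
    (g : SemilinearAut K F) (hinv : ∀ f ∈ Wv, g • f - f ∈ Wv.nonunits) {f : F} (hf : f ≠ 0) :
    ∃ κ : K, κ ≠ 0 ∧ s33gi_PU Wv (g • f / f / algebraMap K F κ) := by
  obtain ⟨c, hc, hu, hu'⟩ := hnrm f hf
  have hc' : algebraMap K F c ≠ 0 := by simpa using hc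
  have hgc : SemilinearAut.baseAut g c ≠ 0 := by simpa using hc
  have hgc' : algebraMap K F (SemilinearAut.baseAut g c) ≠ 0 := by simpa using hgc
  set w := algebraMap K F c * f with hw
  have hw0 : w ≠ 0 := mul_ne_zero hc' hf
  have hvw : Wv.valuation w = 1 := by
    have h1 := (Wv.valuation_le_one_iff w).mpr hu
    have h2 := (Wv.valuation_le_one_iff w⁻¹).mpr hu'
    rw [map_inv₀] at h2
    exact le_antisymm h1 ((inv_le_one₀ ((Valuation.pos_iff _).mpr hw0)).mp h2)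
  have hgw : g • w = algebraMap K F (SemilinearAut.baseAut g c) * g • f := by
    rw [hw, smul_mul', SemilinearAut.smul_algebraMap]
  have hgf : g • f ≠ 0 := by simpa using hf
  refine ⟨c / SemilinearAut.baseAut g c, div_ne_zero hc hgc, ?_⟩
  have e : g • f / f / algebraMap K F (c / SemilinearAut.baseAut g c) = g • w / w := by
    rw [hgw, hw, map_div₀]
    field_simp
  rw [e, s33gi_PU_iff]
  have e2 : g • w / w - 1 = (g • w - w) * w⁻¹ := by field_simp
  rw [e2, map_mul, map_inv₀, hvw, inv_one, mul_one]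
  exact (ValuationSubring.mem_nonunits_iff _).1 (hinv w hu)

/-- **Step A**: every element of the subgroup generated by the `g • z - z` has a representative
which is a constant times a principal unit. -/
theorem s33gi_closure (Wv : ValuationSubring F)
    (hnrm : ∀ f : F, f ≠ 0 → ∃ c : K, c ≠ 0 ∧ algebraMap K F c * f ∈ Wv ∧
      (algebraMap K F c * f)⁻¹ ∈ Wv)
    (Γ : Set (SemilinearAut K F)) (hinv : ∀ g ∈ Γ, ∀ f ∈ Wv, g • f - f ∈ Wv.nonunits)
    (m : ℕ) {y : Pic0 K F}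
    (hy : y ∈ AddSubgroup.closure
      {y : Pic0 K F | ∃ g ∈ Γ, ∃ z : Pic0 K F, m • z = 0 ∧ y = g • z - z}) :
    ∃ (D : Divisor.degZero (K := K) (F := F)) (f : F) (κ : K), κ ≠ 0 ∧ s44pe_Rep m y D f ∧
      s33gi_PU Wv (f / algebraMap K F κ) := by
  induction hy using AddSubgroup.closure_induction with
  | mem y hy =>
    obtain ⟨g, hg, z, hz, rfl⟩ := hy
    obtain ⟨D, f, hrep⟩ := s44pe_exists_rep m z hz
    obtain ⟨κ, hκ, hPU⟩ := s33gi_smul_div_PU Wv hnrm g (hinv g hg) hrep.1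
    exact ⟨_, _, κ, hκ, s33gi_rep_smul_sub hrep g, hPU⟩
  | zero =>
    exact ⟨0, 1, 1, one_ne_zero, s33gi_rep_zero m, by rw [map_one, div_one]; exact s33gi_PU_one Wv⟩
  | add y y' _ _ hy hy' =>
    obtain ⟨D, f, κ, hκ, hrep, hPU⟩ := hy
    obtain ⟨D', f', κ', hκ', hrep', hPU'⟩ := hy'
    refine ⟨D + D', f * f', κ * κ', mul_ne_zero hκ hκ', s33gi_rep_add hrep hrep', ?_⟩
    have e : f * f' / algebraMap K F (κ * κ') =
        (f / algebraMap K F κ) * (f' / algebraMap K F κ') := by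
      rw [map_mul]; ring
    rw [e]
    exact hPU.mul hPU'
  | neg y _ hy =>
    obtain ⟨D, f, κ, hκ, hrep, hPU⟩ := hy
    refine ⟨-D, f⁻¹, κ⁻¹, inv_ne_zero hκ, s33gi_rep_neg hrep, ?_⟩
    have e : f⁻¹ / algebraMap K F κ⁻¹ = (f / algebraMap K F κ)⁻¹ := by
      rw [map_inv₀, inv_div_inv, inv_div]
    rw [e]
    exact hPU.inv

/-! ### Steps B, C, D -/

/-- a `p`-torsion class with an `m`-representative `(D, f)` has a `p`-representative with the same
divisor `D`. -/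
theorem s33gi_exists_rep_same {m p : ℕ} {y : Pic0 K F} {D : Divisor.degZero (K := K) (F := F)}
    {f : F} (h : s44pe_Rep m y D f) (hy : p • y = 0) : ∃ φ : F, s44pe_Rep p y D φ := by
  have h1 : Pic0.mk (p • D) = 0 := by
    have := hy
    rw [← h.2.1] at this
    exact this
  have h2 : (p • D) ∈ (Divisor.principal (K := K) (F := F)).addSubgroupOf
      (Divisor.degZero (K := K) (F := F)) := (QuotientAddGroup.eq_zero_iff _).mp h1
  rw [AddSubgroup.mem_addSubgroupOf] at h2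
  obtain ⟨φ, hφ, hD⟩ := h2
  refine ⟨φ, hφ, h.2.1, fun v => ?_⟩
  rw [← hD v]
  simp

/-- **`p ^ n`-th roots of principal units are principal units** in residue characteristic `p`. -/
theorem s33gi_pow_PU (Wv : ValuationSubring F) {p : ℕ} (hp : p.Prime)
    (hchar : (p : F) ∈ Wv.nonunits) (n : ℕ) {w : F} (hw : s33gi_PU Wv (w ^ p ^ n)) :
    s33gi_PU Wv w := by
  have hq0 : p ^ n ≠ 0 := pow_ne_zero _ hp.ne_zero
  have hvw : Wv.valuation w = 1 := by
    have h1 := hw.val_eq_one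
    rw [map_pow] at h1
    exact (pow_eq_one_iff.1 h1).resolve_right hq0
  have hwW : w ∈ Wv := (Wv.valuation_le_one_iff w).1 hvw.le
  have hw1 : w - 1 ∈ Wv := Wv.sub_mem hwW Wv.one_mem
  obtain ⟨r, hr⟩ := exists_add_pow_prime_pow_eq hp (⟨w - 1, hw1⟩ : ↥Wv) 1 n
  have hr' : w ^ p ^ n = (w - 1) ^ p ^ n + 1 + (p : F) * (w - 1) * (r : F) := by
    have := congrArg (fun t : ↥Wv => (t : F)) hr
    simp only [one_pow, mul_one] at this
    push_cast at this
    rw [sub_add_cancel] at this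
    exact this
  have e : (w - 1) ^ p ^ n = (w ^ p ^ n - 1) - (p : F) * (w - 1) * (r : F) := by
    rw [hr']; ring
  rw [s33gi_PU_iff]
  by_contra hcon
  rw [not_lt] at hcon
  have h1 : (1 : ValuationSubring.ValueGroup Wv) ≤ Wv.valuation ((w - 1) ^ p ^ n) := by
    rw [map_pow]
    exact one_le_pow₀ hcon
  have h2 : Wv.valuation ((w - 1) ^ p ^ n) < 1 := by
    rw [e]
    refine lt_of_le_of_lt (Valuation.map_sub _ _ _) (max_lt ((s33gi_PU_iff _ _).1 hw) ?_)
    rw [map_mul, map_mul]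
    have hp1 : Wv.valuation (p : F) < 1 := (ValuationSubring.mem_nonunits_iff _).1 hchar
    have hw1' : Wv.valuation (w - 1) ≤ 1 := (Wv.valuation_le_one_iff _).2 hw1
    have hr1 : Wv.valuation (r : F) ≤ 1 := (Wv.valuation_le_one_iff _).2 r.2
    calc Wv.valuation (p : F) * Wv.valuation (w - 1) * Wv.valuation (r : F)
        ≤ Wv.valuation (p : F) * 1 * 1 := by gcongr
      _ < 1 := by rw [mul_one, mul_one]; exact hp1
  exact absurd h2 (not_lt.2 h1)

variable [IsAlgClosed K]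

/-- **(INV+), abstract core.**  A `p`-torsion class which is a sum of classes `g • z - z`, `g ∈ Γ`
acting trivially on the residue field of `Wv`, `z` killed by `p ^ n`, has depth `≥ 1` at `Wv`. -/
theorem s33gi_core {p : ℕ} (hp : p.Prime) (n : ℕ)
    (hconst : ∀ u : F, u ≠ 0 → (∀ v : Place K F, v.ord u = 0) → ∃ c : K, u = algebraMap K F c)
    (Wv : ValuationSubring F) (hchar : (p : F) ∈ Wv.nonunits)
    (hnrm : ∀ f : F, f ≠ 0 → ∃ c : K, c ≠ 0 ∧ algebraMap K F c * f ∈ Wv ∧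
      (algebraMap K F c * f)⁻¹ ∈ Wv)
    (Γ : Set (SemilinearAut K F)) (hinv : ∀ g ∈ Γ, ∀ f ∈ Wv, g • f - f ∈ Wv.nonunits)
    (x : Pic0 K F) (hx : p • x = 0)
    (hsum : x ∈ AddSubgroup.closure
      {y : Pic0 K F | ∃ g ∈ Γ, ∃ z : Pic0 K F, p ^ n • z = 0 ∧ y = g • z - z}) :
    s44pe_Depth1 p Wv x := by
  obtain ⟨D, Fx, κ, hκ, hrep, hPU⟩ := s33gi_closure Wv hnrm Γ hinv (p ^ n) hsum
  obtain ⟨φ, hφ⟩ := s33gi_exists_rep_same hrep hx
  have hκ' : algebraMap K F κ ≠ 0 := by simpa using hκ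
  have hq : 0 < p ^ n := pow_pos hp.pos n
  -- `p ^ n D = div Fx`, `p D = div φ`: `φ ^ p ^ n / Fx ^ p` is constant.
  have hord : ∀ v : Place K F, v.ord (φ ^ p ^ n / Fx ^ p) = 0 := by
    intro v
    rw [div_eq_mul_inv, v.ord_mul (pow_ne_zero _ hφ.1) (inv_ne_zero (pow_ne_zero _ hrep.1)),
      v.ord_inv, ← zpow_natCast, ← zpow_natCast, v.ord_zpow, v.ord_zpow, ← hφ.2.2 v,
      ← hrep.2.2 v]
    push_cast
    ring
  have hFxp : Fx ^ p ≠ 0 := pow_ne_zero _ hrep.1
  obtain ⟨c₀, hc₀⟩ := hconst _ (div_ne_zero (pow_ne_zero _ hφ.1) hFxp) hord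
  have hc₀0 : c₀ ≠ 0 := by
    rintro rfl
    rw [map_zero] at hc₀
    exact div_ne_zero (pow_ne_zero _ hφ.1) hFxp hc₀
  have hφq : φ ^ p ^ n = algebraMap K F c₀ * Fx ^ p := (div_eq_iff hFxp).1 hc₀
  -- a `p ^ n`-th root of the constant
  obtain ⟨κ5, hκ5⟩ := IsAlgClosed.exists_pow_nat_eq (c₀ * κ ^ p) hq
  have hκ50 : κ5 ≠ 0 := by
    rintro rfl
    rw [zero_pow hq.ne'] at hκ5
    exact mul_ne_zero hc₀0 (pow_ne_zero _ hκ) hκ5.symm
  have hκ5' : algebraMap K F κ5 ≠ 0 := by simpa using hκ50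
  -- `w := φ / κ5` is a principal unit
  have hw : s33gi_PU Wv ((φ / algebraMap K F κ5) ^ p ^ n) := by
    have e : (φ / algebraMap K F κ5) ^ p ^ n = (Fx / algebraMap K F κ) ^ p := by
      rw [div_pow, ← map_pow, hκ5, hφq, map_mul, map_pow, div_pow]
      have hc₀' : algebraMap K F c₀ ≠ 0 := by simpa using hc₀0
      field_simp
    rw [e]
    exact hPU.pow p
  have hwPU := s33gi_pow_PU Wv hp hchar n hw
  -- a `p`-th root of `κ5`
  obtain ⟨g0, hg0⟩ := IsAlgClosed.exists_pow_nat_eq κ5 hp.pos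
  have hg00 : g0 ≠ 0 := by
    rintro rfl
    rw [zero_pow hp.ne_zero] at hg0
    exact hκ50 hg0.symm
  refine ⟨D, φ, algebraMap K F g0, hφ, by simpa using hg00, ?_⟩
  rw [← map_pow, hg0]
  exact hwPU

/-- **(INV+), abstract core, `T`-variant**: the same at the valuation ring `Wv.comap T` for a
`K`-algebra endomorphism `T` commuting with the elements of `Γ`. -/
theorem s33gi_core_T {p : ℕ} (hp : p.Prime) (n : ℕ)
    (hconst : ∀ u : F, u ≠ 0 → (∀ v : Place K F, v.ord u = 0) → ∃ c : K, u = algebraMap K F c)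
    (Wv : ValuationSubring F) (hchar : (p : F) ∈ Wv.nonunits)
    (hnrm : ∀ f : F, f ≠ 0 → ∃ c : K, c ≠ 0 ∧ algebraMap K F c * f ∈ Wv ∧
      (algebraMap K F c * f)⁻¹ ∈ Wv)
    (Γ : Set (SemilinearAut K F)) (hinv : ∀ g ∈ Γ, ∀ f ∈ Wv, g • f - f ∈ Wv.nonunits)
    (T : F →ₐ[K] F) (hT : ∀ g ∈ Γ, ∀ f : F, T (g • f) = g • T f)
    (x : Pic0 K F) (hx : p • x = 0)
    (hsum : x ∈ AddSubgroup.closure
      {y : Pic0 K F | ∃ g ∈ Γ, ∃ z : Pic0 K F, p ^ n • z = 0 ∧ y = g • z - z}) :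
    ∃ (D : Divisor.degZero (K := K) (F := F)) (f h : F), s44pe_Rep p x D f ∧ h ≠ 0 ∧
      T f / h ^ p - 1 ∈ Wv.nonunits := by
  have hchar' : (p : F) ∈ (Wv.comap (T : F →+* F)).nonunits := by
    rw [s44pe_mem_comap_nonunits, map_natCast]
    exact hchar
  have hinv' : ∀ g ∈ Γ, ∀ f ∈ Wv.comap (T : F →+* F),
      g • f - f ∈ (Wv.comap (T : F →+* F)).nonunits := by
    intro g hg f hf
    rw [s44pe_mem_comap_nonunits]
    have h1 : (T : F →+* F) (g • f - f) = g • T f - T f := by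
      rw [map_sub]
      exact congrArg (· - T f) (hT g hg f)
    rw [h1]
    exact hinv g hg _ hf
  have hnrm' : ∀ f : F, f ≠ 0 → ∃ c : K, c ≠ 0 ∧ algebraMap K F c * f ∈ Wv.comap (T : F →+* F) ∧
      (algebraMap K F c * f)⁻¹ ∈ Wv.comap (T : F →+* F) := by
    intro f hf
    have hTf : T f ≠ 0 := by
      rw [Ne, map_eq_zero]
      exact hf
    obtain ⟨c, hc, h1, h2⟩ := hnrm (T f) hTf
    have h3 : (T : F →+* F) (algebraMap K F c * f) = algebraMap K F c * T f := by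
      show T (algebraMap K F c * f) = _
      rw [map_mul, AlgHom.commutes]
    refine ⟨c, hc, ?_, ?_⟩
    · rw [ValuationSubring.mem_comap, h3]
      exact h1
    · rw [ValuationSubring.mem_comap, map_inv₀, h3]
      exact h2
  obtain ⟨D, f, h, hrep, hh, hmem⟩ :=
    s33gi_core hp n hconst (Wv.comap (T : F →+* F)) hchar' hnrm' Γ hinv' x hx hsum
  refine ⟨D, f, T h, hrep, ?_, ?_⟩
  · rw [Ne, map_eq_zero]
    exact hh
  · rw [s44pe_mem_comap_nonunits] at hmem
    have h4 : (T : F →+* F) (f / h ^ p - 1) = T f / T h ^ p - 1 := by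
      show T (f / h ^ p - 1) = _
      rw [map_sub, map_div₀, map_pow, map_one]
    rw [h4] at hmem
    exact hmem

/-- the same in the shape of the frame: `T f = h ^ p * (1 + y)`, `y ∈ 𝔪_{Wv}`. -/
theorem s33gi_core_frame {p : ℕ} (hp : p.Prime) (n : ℕ)
    (hconst : ∀ u : F, u ≠ 0 → (∀ v : Place K F, v.ord u = 0) → ∃ c : K, u = algebraMap K F c)
    (Wv : ValuationSubring F) (hchar : (p : F) ∈ Wv.nonunits)
    (hnrm : ∀ f : F, f ≠ 0 → ∃ c : K, c ≠ 0 ∧ algebraMap K F c * f ∈ Wv ∧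
      (algebraMap K F c * f)⁻¹ ∈ Wv)
    (Γ : Set (SemilinearAut K F)) (hinv : ∀ g ∈ Γ, ∀ f ∈ Wv, g • f - f ∈ Wv.nonunits)
    (T : F →ₐ[K] F) (hT : ∀ g ∈ Γ, ∀ f : F, T (g • f) = g • T f)
    (x : Pic0 K F) (hx : p • x = 0)
    (hsum : x ∈ AddSubgroup.closure
      {y : Pic0 K F | ∃ g ∈ Γ, ∃ z : Pic0 K F, p ^ n • z = 0 ∧ y = g • z - z}) :
    ∃ f : F, (f ≠ 0 ∧ ∃ D : Divisor.degZero (K := K) (F := F), Pic0.mk D = x ∧
        ∀ v : Place K F, (p : ℤ) * (D : Divisor K F) v = v.ord f) ∧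
      ∃ h y : F, h ≠ 0 ∧ y ∈ Wv.nonunits ∧ T f = h ^ p * (1 + y) := by
  obtain ⟨D, f, h, hrep, hh, hmem⟩ :=
    s33gi_core_T hp n hconst Wv hchar hnrm Γ hinv T hT x hx hsum
  refine ⟨f, ⟨hrep.1, D, hrep.2.1, hrep.2.2⟩, h, T f / h ^ p - 1, hh, hmem, ?_⟩
  have hhp : h ^ p ≠ 0 := pow_ne_zero _ hh
  field_simp
  ring

end Fermat.Agent.S33
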