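/-
S33, cell [S33-GEO], (INV+) (helper26; prefix `s33gi_`).

`N = M p`, `p ∤ M`, `A` ANY valuation subring of `ℚ̄` above `p`, `I ⊆ Gal(ℚ̄/ℚ)` its inertia
group.  A `p`-torsion class `x ∈ J₀(N)[p]` which is a sum of classes `σ • z - z`, `σ ∈ I`,
`z ∈ J₀(N)[p ^ n]`, has depth `≥ 1` at both Gauss valuations `w_∞`, `w_0 = w_∞ ∘ W̄_p` over `A`
(in the vocabulary `s44f_Depth2` of the S44 frame, version 2, which is place-free).

Instance of the abstract core `s33gi_core_frame` (S33/Geo/InvCore.lean) with the `ℚ̄`-level Gauss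
valuation ring `s44pg_W` of S44/PsiEig/Gauss.lean ((nrm), constants), the inertia fact `s44pe_inv`
and `s44pe_Wbar_smul` (Atkin–Lehner is defined over `ℚ`) of S44/PsiEig/Inv.lean, and `s44pe_hconst`.
-/
import Fermat.Agent.S44.PsiEig.Main
import Fermat.Agent.S33.Geo.InvCore

set_option autoImplicit false

namespace Fermat.Agent.S33

open ModularCurve AlgebraicCurve Fermat.Agent.JT3 Fermat.Agent.S35 Fermat.Agent.SS
  Fermat.Agent.S44

/-- **(INV+)**: a `p`-torsion class in `(I - 1) J₀(M p)[p ^ n]` has depth `≥ 1` at `w_∞` and at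
`w_0`, for every place `A` of `ℚ̄` above `p` with inertia group `I`. -/
theorem s33gi_invplus (M p : ℕ) [NeZero M] [NeZero p] [NeZero (M * p)] (hp : p.Prime)
    (hpM : ¬ p ∣ M)
    (A : ValuationSubring s44_Qb) (hA : A.LiesOverPrime p) (n : ℕ) (x : JZero (M * p))
    (hx : p • x = 0)
    (hsum : x ∈ AddSubgroup.closure {y : JZero (M * p) | ∃ σ ∈ A.inertiaSubgroupIn ℚ,
      ∃ z : JZero (M * p), p ^ n • z = 0 ∧ y = σ • z - z}) :
    (∃ c : s44_Qb, c ≠ 0 ∧ c ∈ A.nonunits ∧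
      s44f_Depth2 (M * p) A p c (AlgHom.id _ _) x) ∧
    (∃ c : s44_Qb, c ≠ 0 ∧ c ∈ A.nonunits ∧
      s44f_Depth2 (M * p) A p c (ssm_al_Wbar M p hp hpM) x) := by
  have hp0 : p ≠ 0 := hp.ne_zero
  set Γ : Set (SemilinearAut (AlgebraicClosure ℚ) (modularFunctionFieldBar (M * p))) :=
    {g | ∃ σ ∈ A.inertiaSubgroupIn ℚ, g = arithmeticGalois (modularFunctionFieldFull (M * p)) σ}
    with hΓ
  have hsum' : x ∈ AddSubgroup.closure {y : JZero (M * p) | ∃ g ∈ Γ,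
      ∃ z : JZero (M * p), p ^ n • z = 0 ∧ y = g • z - z} := by
    refine AddSubgroup.closure_mono ?_ hsum
    rintro y ⟨σ, hσ, z, hz, rfl⟩
    exact ⟨_, ⟨σ, hσ, rfl⟩, z, hz, rfl⟩
  have hinv : ∀ g ∈ Γ, ∀ f ∈ s44pg_W A hA hp0 (M * p),
      g • f - f ∈ (s44pg_W A hA hp0 (M * p)).nonunits := by
    rintro g ⟨σ, hσ, rfl⟩ f hf
    exact s44pe_inv (M * p) A _ (fun b => s44pg_mem_iff A hA hp0 (M * p) b) σ hσ f hf
  have hchar : ((p : ℕ) : modularFunctionFieldBar (M * p)) ∈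
      (s44pg_W A hA hp0 (M * p)).nonunits := by
    rw [← map_natCast (algebraMap (AlgebraicClosure ℚ) (modularFunctionFieldBar (M * p))),
      s44pg_const_mem_nonunits]
    exact hA
  have key : ∀ T : modularFunctionFieldBar (M * p) →ₐ[AlgebraicClosure ℚ]
      modularFunctionFieldBar (M * p),
      (∀ g ∈ Γ, ∀ f, T (g • f) = g • T f) →
      ∃ c : s44_Qb, c ≠ 0 ∧ c ∈ A.nonunits ∧ s44f_Depth2 (M * p) A p c T x := by
    intro T hT
    obtain ⟨f, ⟨hf0, D, hD, hord⟩, h, y, hh, hy, hTf⟩ :=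
      s33gi_core_frame hp n (s44pe_hconst (M * p)) (s44pg_W A hA hp0 (M * p)) hchar
        (fun f hf => s44pg_nrm A hA hp0 (M * p) hf) Γ hinv T hT x hx hsum'
    obtain ⟨c, hc0, hcA', b, hb, hyb⟩ := (s44pg_mem_nonunits_iff A hA hp0 (M * p) y).1 hy
    refine ⟨c, hc0, hcA', f, ⟨hf0, D, hD, hord⟩, h, b, hh,
      (s44pg_mem_iff A hA hp0 (M * p) b).1 hb, ?_⟩
    rw [hTf, hyb]
  refine ⟨key (AlgHom.id _ _) (fun g _ f => rfl), key (ssm_al_Wbar M p hp hpM) ?_⟩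
  rintro g ⟨σ, hσ, rfl⟩ f
  exact s44pe_Wbar_smul M p hp hpM σ f

end Fermat.Agent.S33
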